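import Fermat.Agent.RT.Lift.Ihara
import Fermat.Agent.RT.GammaH.Boundary
import Fermat.Agent.GaloisReps.Results
import Mathlib.NumberTheory.LegendreSymbol.Basic

/-!
# Eigen homomorphisms modulo two

For a squarefree level with a prime `3 mod 4`, a homomorphism `Γ₀(L) → F` into a group of exponent
two fixed by `T_l` for one odd prime `l ∤ L` kills all elliptic elements and, at odd cusp orders,
all parabolic ones. Parabolic homomorphisms modulo `p` are the classes of order `p`.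
-/

set_option autoImplicit false
set_option linter.unusedSectionVars false

noncomputable section

namespace Fermat.Agent.RT.Two.Seed

open CongruenceSubgroup ModularCurve
open Fermat.Agent.RT.GammaH
open Matrix.SpecialLinearGroup (SL2_inv_expl)
open Fermat.Agent.GaloisReps (homOp)
open Fermat.Agent.Periods (systemT homT HeckeSystem)
open scoped MatrixGroups

section Hom

variable {L : ℕ} [NeZero L] {F : Type} [AddCommGroup F]

theorem homT_apply_sum {l : ℕ} [NeZero l] (hl : l.Prime) (hlL : ¬ l ∣ L)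
    (φ : Additive (Gamma0 L) →+ F) (γ : Gamma0 L) :
    homT hl hlL ℤ φ (Additive.ofMul γ) =
      ∑ i, φ (Additive.ofMul ((systemT hl hlL).cocycle γ i)) := by
  rw [homT, HeckeSystem.op_apply, HeckeSystem.apply_apply]

theorem odd_nsmul_eq (hF : ∀ x : F, x + x = 0) {n : ℕ} (hn : Odd n) (x : F) : n • x = x := by
  obtain ⟨k, rfl⟩ := hn
  rw [add_nsmul, one_nsmul, mul_comm, mul_nsmul', two_nsmul, hF, nsmul_zero, zero_add]

theorem apply_neg_one_eq_zero (hF : ∀ x : F, x + x = 0) {l : ℕ} (hl : l.Prime) (hl2 : l ≠ 2)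
    (hlL : ¬ l ∣ L) {φ : Additive (Gamma0 L) →+ F} (hφ : homT hl hlL ℤ φ = φ)
    (h : (-1 : SL(2, ℤ)) ∈ Gamma0 L) : φ (Additive.ofMul ⟨-1, h⟩) = 0 := by
  have : NeZero l := ⟨hl.ne_zero⟩
  have e : ∀ i, (systemT hl hlL).cocycle ⟨-1, h⟩ i = ⟨-1, h⟩ := fun i => by
    refine ((systemT hl hlL).eq_of_spec (γ := ⟨-1, h⟩) (i := i) (j := i) ?_).2
    have hm : (Matrix.SpecialLinearGroup.mapGL ℝ (-1 : SL(2, ℤ)) : GL (Fin 2) ℝ) = -1 := by
      ext i j
      simp
    simp only [hm, mul_neg, mul_one, neg_mul, one_mul]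
  have h0 : φ (Additive.ofMul (⟨-1, h⟩ : Gamma0 L)) = (l + 1) • φ (Additive.ofMul ⟨-1, h⟩) := by
    conv_lhs => rw [← hφ, homT_apply_sum]
    simp only [e, Finset.sum_const, Finset.card_univ, Fintype.card_option, ZMod.card]
  rw [succ_nsmul, odd_nsmul_eq hF (hl.odd_of_ne_two hl2), hF] at h0
  exact h0

theorem homT_eq_hecke {l : ℕ} [Fact l.Prime] (hl : l.Prime) (hlL : ¬ l ∣ L)
    (φ : Additive (Gamma0 L) →+ F) :
    hecke L ⊤ l ℤ (Lift.toTop ℤ L φ) = Lift.toTop ℤ L (homT hl hlL ℤ φ) :=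
  Lift.hecke_toTop ℤ hl hlL φ

/-- Hecke operators away from the level commute on homomorphisms. -/
theorem homT_comm {l m : ℕ} (hl : l.Prime) (hlL : ¬ l ∣ L) (hm : m.Prime) (hmL : ¬ m ∣ L)
    (φ : Additive (Gamma0 L) →+ F) :
    homT hl hlL ℤ (homT hm hmL ℤ φ) = homT hm hmL ℤ (homT hl hlL ℤ φ) := by
  have : Fact l.Prime := ⟨hl⟩
  have : Fact m.Prime := ⟨hm⟩
  refine (Lift.toTop ℤ L).injective ?_
  rw [← homT_eq_hecke hl hlL, ← homT_eq_hecke hm hmL, ← homT_eq_hecke hm hmL,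
    ← homT_eq_hecke hl hlL]
  exact hecke_comm ℤ l _

/-- The value at the parabolic elements `g T^L g⁻¹` vanishes. -/
theorem apply_cusp_eq_zero (hF : ∀ x : F, x + x = 0) (hL : Squarefree L) {l : ℕ} (hl : l.Prime)
    (hl2 : l ≠ 2) (hlL : ¬ l ∣ L) {φ : Additive (Gamma0 L) →+ F} (hφ : homT hl hlL ℤ φ = φ)
    (g : SL(2, ℤ)) (h : g * ModularGroup.T ^ (L : ℤ) * g⁻¹ ∈ Gamma0 L) :
    φ (Additive.ofMul ⟨_, h⟩) = 0 := by
  have : Fact l.Prime := ⟨hl⟩
  have h' : g * ModularGroup.T ^ (L : ℤ) * g⁻¹ ∈ gammaH L (⊤ : Subgroup (ZMod L)ˣ) := by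
    rw [gammaH_top]; exact h
  obtain ⟨e, e', he⟩ := exists_hecke_cusp (K := (⊤ : Subgroup (ZMod L)ˣ)) (ℓ := l) hL hlL
    (d := Int.gcd (g 1 0) L) (Int.natCast_dvd_natCast.1 (Int.gcd_dvd_right _ _))
  have key := he ℤ F (Lift.toTop ℤ L φ) g rfl h'
  rw [homT_eq_hecke hl hlL, hφ, diamond_top, diamond_top, odd_nsmul_eq hF (hl.odd_of_ne_two hl2),
    hF] at key
  exact key

/-- An eigen homomorphism modulo two kills the elliptic and parabolic elements. -/
theorem mem_ellParHoms_of_eigen (hF : ∀ x : F, x + x = 0) (hL : Squarefree L)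
    (h3 : ∃ p : ℕ, p.Prime ∧ p ∣ L ∧ p % 4 = 3) {l : ℕ} (hl : l.Prime) (hl2 : l ≠ 2)
    (hlL : ¬ l ∣ L) {φ : Additive (Gamma0 L) →+ F} (hφ : homT hl hlL ℤ φ = φ)
    (hev : 2 ∣ L → ∀ γ : Gamma0 L, (γ : SL(2, ℤ)) 0 0 + (γ : SL(2, ℤ)) 1 1 = 2 →
      2 * (L : ℤ) ∣ (γ : SL(2, ℤ)) 1 0 → φ (Additive.ofMul γ) = 0) :
    φ ∈ Gamma0.ellParHoms (Gamma0 L) F := by
  have hneg : (-1 : SL(2, ℤ)) ∈ Gamma0 L := by simp [Gamma0_mem]
  have hn1 := apply_neg_one_eq_zero hF hl hl2 hlL hφ hneg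
  have hu : ∀ γ : Gamma0 L, (γ : SL(2, ℤ)) 0 0 + (γ : SL(2, ℤ)) 1 1 = 2 →
      φ (Additive.ofMul γ) = 0 := by
    intro γ htr
    obtain ⟨δ, m, hδ⟩ := Periods.exists_conj_T (γ : SL(2, ℤ)) htr
    have hc : (γ : SL(2, ℤ)) 1 0 = -(δ 1 0 * δ 1 0 * m) := by
      rw [hδ]
      simp [Matrix.mul_apply, Fin.sum_univ_two, ModularGroup.coe_T_zpow, SL2_inv_expl δ]
      ring
    have hdiv : (L : ℤ) ∣ δ 1 0 * δ 1 0 * m := by
      have h1 := (ZMod.intCast_zmod_eq_zero_iff_dvd _ _).mp (Gamma0_mem.mp γ.2)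
      rwa [hc, dvd_neg] at h1
    set d := Int.gcd (δ 1 0) L with hd
    obtain ⟨d', hd'⟩ : d ∣ L := Int.natCast_dvd_natCast.1 (Int.gcd_dvd_right _ _)
    have hco : Nat.Coprime d d' := Nat.coprime_of_squarefree_mul (hd' ▸ hL)
    have hcd' : IsCoprime (δ 1 0) (d' : ℤ) := by
      rw [Int.isCoprime_iff_gcd_eq_one]
      refine Nat.eq_one_of_dvd_coprimes hco ?_
        (Int.natCast_dvd_natCast.1 (Int.gcd_dvd_right _ _))
      rw [hd]
      exact Int.gcd_dvd_gcd_of_dvd_right (δ 1 0)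
        (Int.natCast_dvd_natCast.2 ⟨d, by rw [hd', mul_comm]⟩)
    obtain ⟨m', hm'⟩ : (d' : ℤ) ∣ m := by
      refine (hcd'.mul_left hcd').symm.dvd_of_dvd_mul_left (dvd_trans ?_ hdiv)
      exact Int.natCast_dvd_natCast.2 ⟨d, by rw [hd', mul_comm]⟩
    rcases Nat.even_or_odd d with hev' | hodd'
    · have h2L : 2 ∣ L := hev'.two_dvd.trans ⟨d', hd'⟩
      obtain ⟨k, hk⟩ : (d : ℤ) ∣ δ 1 0 := Int.gcd_dvd_left _ _
      obtain ⟨j, hj⟩ := hev'.two_dvd
      refine hev h2L γ htr ⟨-((j : ℤ) * k * k * m'), ?_⟩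
      rw [hc, hk, hm', hd']
      push_cast
      rw [hj]
      push_cast
      ring
    · have hX : δ * ModularGroup.T ^ (L : ℤ) * δ⁻¹ ∈ Gamma0 L := by
        rw [← gammaH_top]
        exact Gamma_le_gammaH ((Gamma_normal L).conj_mem _ (by
          simpa using ModularGroup_T_pow_mem_Gamma (L : ℤ) L dvd_rfl) δ)
      have e : γ ^ d = (⟨_, hX⟩ : Gamma0 L) ^ m' := Subtype.ext (by
        simp only [Subgroup.coe_zpow, hδ, conj_zpow, ← zpow_natCast,
          ← zpow_mul, hm', hd']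
        push_cast
        ring_nf)
      rw [← odd_nsmul_eq hF hodd' (φ (Additive.ofMul γ)), ← map_nsmul φ, ← ofMul_pow, e,
        ofMul_zpow, map_zsmul, apply_cusp_eq_zero hF hL hl hl2 hlL hφ δ hX, zsmul_zero]
  intro γ hγ
  rw [Matrix.trace_fin_two] at hγ
  set t := (γ : SL(2, ℤ)) 0 0 + (γ : SL(2, ℤ)) 1 1 with ht
  have hdet := Gamma0.det_eq (γ : SL(2, ℤ))
  have ht2 : -2 ≤ t ∧ t ≤ 2 := ⟨by nlinarith, by nlinarith⟩
  obtain ⟨ht0, ht0'⟩ := ht2
  have hcube : t * t = 1 → φ (Additive.ofMul γ) = 0 := by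
    intro ht1
    set B : Matrix (Fin 2) (Fin 2) ℤ := ((γ : SL(2, ℤ)) : Matrix (Fin 2) (Fin 2) ℤ) with hB
    have hsq : B * B = t • B - 1 := by
      ext i j
      simp only [Matrix.mul_apply, Fin.sum_univ_two, Matrix.sub_apply, Matrix.smul_apply,
        smul_eq_mul, Matrix.one_apply, ht]
      fin_cases i <;> fin_cases j <;> simp <;>
        first
          | linear_combination hdet
          | linear_combination -hdet
          | ring
    have hB3 : B * B * B = (-t) • 1 := by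
      rw [hsq, sub_mul, one_mul, smul_mul_assoc, hsq, smul_sub, smul_smul, ht1, one_smul, neg_smul]
      abel
    have e : γ ^ 3 = if t = 1 then ⟨-1, hneg⟩ else 1 := by
      refine Subtype.ext (Subtype.ext ?_)
      rw [Subgroup.coe_pow, Matrix.SpecialLinearGroup.coe_pow, pow_succ, pow_two, hB3]
      rcases mul_self_eq_one_iff.mp ht1 with h1 | h1
      · rw [if_pos h1, h1]
        simp
      · rw [if_neg (by omega), h1]
        simp
    rw [← odd_nsmul_eq hF (by decide : Odd 3) (φ (Additive.ofMul γ)), ← map_nsmul φ, ← ofMul_pow, e]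
    split_ifs
    · exact hn1
    · exact map_zero φ
  interval_cases h : t
  · have hγ' : (⟨-1, hneg⟩ * γ : Gamma0 L) * ⟨-1, hneg⟩ = γ := Subtype.ext (by simp)
    have h0 := hu (⟨-1, hneg⟩ * γ) (by simp; linarith)
    rw [← hγ', ofMul_mul, map_add, h0, hn1, add_zero]
  · exact hcube (by norm_num)
  · exfalso
    obtain ⟨p, hp, hpL, hp4⟩ := h3
    have : Fact p.Prime := ⟨hp⟩
    have hc : (((γ : SL(2, ℤ)) 1 0 : ℤ) : ZMod p) = 0 :=
      (ZMod.intCast_zmod_eq_zero_iff_dvd _ _).mpr ((Int.natCast_dvd_natCast.2 hpL).trans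
        ((ZMod.intCast_zmod_eq_zero_iff_dvd _ _).mp (Gamma0_mem.mp γ.2)))
    have hd' : (γ : SL(2, ℤ)) 1 1 = -(γ : SL(2, ℤ)) 0 0 := by linarith
    rw [hd'] at hdet
    have hz := congrArg (Int.cast : ℤ → ZMod p) hdet
    push_cast at hz
    rw [hc, mul_zero, sub_zero] at hz
    exact ZMod.exists_sq_eq_neg_one_iff.mp
      ⟨(((γ : SL(2, ℤ)) 0 0 : ℤ) : ZMod p), by linear_combination hz⟩ hp4
  · exact hcube (by norm_num)
  · exact hu γ h

end Hom

section Classes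

open Fermat.Agent.GaloisReps

variable {L p : ℕ} [NeZero L] [Fact p.Prime] {G : ℕ → Prop} {a : ℕ → ℕ}

/-- An eigen class of order `p` gives a parabolic eigen homomorphism. -/
theorem exists_hom_of_eigenclass {x : JZero L} (hx : x ≠ 0) (hpx : p • x = 0)
    (hxe : ∀ l (hl : l.Prime), G l → heckeOperatorBar L ⟨l, hl⟩ x = a l • x) :
    ∃ φ ∈ Gamma0.ellParHoms (Gamma0 L) (ZMod (p ^ 1)), φ ≠ 0 ∧
      ∀ l (hl : l.Prime), G l → homOp L (ZMod (p ^ 1)) l hl φ = a l • φ := by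
  let z : JTors L p 1 := ⟨x, AlgebraicCurve.Pic0.mem_torsion.mpr
    (by rw [natCast_zsmul, pow_one]; exact hpx)⟩
  let E := torsionIso L p (conjProperty L)
  refine ⟨(E.e 1 z).1, (E.e 1 z).2, fun h => hx ?_, fun l hl hG => ?_⟩
  · have h1 : E.e 1 z = 0 := Subtype.ext h
    rw [AddEquiv.map_eq_zero_iff] at h1
    exact congrArg Subtype.val h1
  · have e : heckeTors 1 ⟨l, hl⟩ z = a l • z := Subtype.ext (hxe l hl hG)
    have h := E.hecke 1 l hl z (heckeTors 1 ⟨l, hl⟩ z) rfl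
    rw [e, map_nsmul] at h
    exact h.symm

/-- A parabolic eigen homomorphism as an eigen class. -/
theorem symm_eigenclass {φ : Additive (Gamma0 L) →+ ZMod (p ^ 1)}
    (hmem : φ ∈ Gamma0.ellParHoms (Gamma0 L) (ZMod (p ^ 1)))
    (hφe : ∀ l (hl : l.Prime), G l → homOp L (ZMod (p ^ 1)) l hl φ = a l • φ) :
    p • (((torsionIso L p (conjProperty L)).e 1).symm ⟨φ, hmem⟩ : JZero L) = 0 ∧
      ∀ l (hl : l.Prime), G l → heckeOperatorBar L ⟨l, hl⟩
        (((torsionIso L p (conjProperty L)).e 1).symm ⟨φ, hmem⟩ : JZero L) =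
          a l • (((torsionIso L p (conjProperty L)).e 1).symm ⟨φ, hmem⟩ : JZero L) := by
  let E := torsionIso L p (conjProperty L)
  set z := (E.e 1).symm ⟨φ, hmem⟩ with hz
  refine ⟨by simpa using AlgebraicCurve.Pic0.mem_torsion.mp z.2, fun l hl hG => ?_⟩
  have e : heckeTors 1 ⟨l, hl⟩ z = a l • z := by
    apply (E.e 1).injective
    refine Subtype.ext ?_
    rw [E.hecke 1 l hl z _ rfl, map_nsmul, hz, AddEquiv.apply_symm_apply]
    exact hφe l hl hG
  exact congrArg Subtype.val e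

/-- A parabolic eigen homomorphism gives an eigen class of order `p`. -/
theorem exists_eigenclass_of_hom {φ : Additive (Gamma0 L) →+ ZMod (p ^ 1)}
    (hmem : φ ∈ Gamma0.ellParHoms (Gamma0 L) (ZMod (p ^ 1))) (hφ : φ ≠ 0)
    (hφe : ∀ l (hl : l.Prime), G l → homOp L (ZMod (p ^ 1)) l hl φ = a l • φ) :
    ∃ x : JZero L, x ≠ 0 ∧ p • x = 0 ∧
      ∀ l (hl : l.Prime), G l → heckeOperatorBar L ⟨l, hl⟩ x = a l • x := by
  refine ⟨((torsionIso L p (conjProperty L)).e 1).symm ⟨φ, hmem⟩, fun h0 => hφ ?_,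
    symm_eigenclass hmem hφe⟩
  have h1 := (AddEquiv.map_eq_zero_iff _).1 (Subtype.ext h0)
  exact congrArg Subtype.val h1

end Classes

end Fermat.Agent.RT.Two.Seed

end
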