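import Fermat.Agent.RT.AtP.Module
import Fermat.Agent.OrdinaryAtP.Conn.Main
import Fermat.Agent.GaloisReps.Unconditional

/-!
# Lowering eigen classes modulo two from level `2 N` to level `N`

If no eigen class of order two exists at level `N`, both degeneracy maps kill the eigen classes of
level `2 N`, so an inertia element of order three in the residual image would fix their moved part.
-/

set_option autoImplicit false
set_option linter.unusedSectionVars false

noncomputable section

namespace Fermat.Agent.RT.Two.Seed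

open ModularCurve AlgebraicCurve
open Fermat.Agent.Semistable
open Fermat.Agent.JacTorsion
open Fermat.Agent.OrdinaryAtP (movedGroup)
open Fermat.Agent.OrdinaryAtP.Conn
open Fermat.Agent.RT.AtP (eigTors eigRep eigRep_quadratic coe_eigRep smul_mem_eigTors)
open Arith (QBar GQ)

/-! Shortcut instances for the Jacobians and their function fields. -/

local instance (n : ℕ) : Algebra QBar (FB n) := inferInstance
local instance (n : ℕ) : AddCommGroup (JZero n) := inferInstance
local instance (n : ℕ) : AddMonoid (JZero n) := inferInstance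
local instance (n : ℕ) : DistribMulAction GQ (JZero n) := inferInstance
local instance (n : ℕ) : DistribSMul GQ (JZero n) := inferInstance

variable {N : ℕ} [NeZero N] [NeZero (2 * N)]

theorem nsmul_galois {L : ℕ} (σ : GQ) (n : ℕ) (z : JZero L) : σ • (n • z) = n • (σ • z) :=
  map_nsmul (DistribSMul.toAddMonoidHom (JZero L) σ) n z

/-- An equivariant map on the torsion of level `2 N` carries eigen classes to eigen classes. -/
theorem eigen_of_equivariant {G : ℕ → Prop} {a : ℕ → ℕ}
    (hG : ∀ l, l.Prime → G l → ¬ l ∣ 2 * N * 2)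
    (D : Pic0.torsion QBar (FB (2 * N)) 2 →+ JZero N) (htwo : ∀ y, 2 • D y = 0)
    (hD : ∀ (σ : GQ) (x y : Pic0.torsion QBar (FB (2 * N)) 2),
      (y : JZero (2 * N)) = σ • (x : JZero (2 * N)) → D y = σ • D x)
    {x : Pic0.torsion QBar (FB (2 * N)) 2}
    (hx : (x : JZero (2 * N)) ∈ eigTors (2 * N) 2 G a) : D x ∈ eigTors N 2 G a := by
  refine ⟨htwo x, fun l hl hGl => ?_⟩
  obtain ⟨A, hA⟩ := Arith.exists_liesOverPrime hl
  obtain ⟨σ, hσ⟩ := Arith.exists_isFrobeniusAt hA hl
  let act : GQ → Pic0.torsion QBar (FB (2 * N)) 2 → Pic0.torsion QBar (FB (2 * N)) 2 := fun g z =>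
    ⟨g • (z : JZero (2 * N)), Pic0.mem_torsion.mpr (by
      rw [natCast_zsmul, ← nsmul_galois,
        show 2 • (z : JZero (2 * N)) = 0 by rw [← natCast_zsmul]; exact Pic0.mem_torsion.mp z.2]
      exact map_zero (DistribSMul.toAddMonoidHom (JZero (2 * N)) g))⟩
  have hup : σ • σ • (x : JZero (2 * N)) - a l • (σ • (x : JZero (2 * N))) +
      l • (x : JZero (2 * N)) = 0 := by
    have h := (GaloisReps.congruenceProperty (2 * N) 2 l hl (hG l hl hGl) A hA 1
      ⟨x.1, Pic0.mem_torsion.mpr (by rw [natCast_zsmul, pow_one]; exact hx.1)⟩).2 σ hσ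
    have he := (smul_mem_eigTors (2 * N) 2 G a σ hx).2 l hl hGl
    simp only at h
    rwa [he] at h
  have hup' : act σ (act σ x) - a l • act σ x + l • x = 0 := Subtype.ext hup
  have hdown := congrArg D hup'
  rw [map_add, map_sub, map_nsmul, map_nsmul, map_zero, hD σ (act σ x) (act σ (act σ x)) rfl,
    hD σ x (act σ x) rfl] at hdown
  have hlow := (GaloisReps.congruenceProperty N 2 l hl
    (fun h => hG l hl hGl (h.trans ⟨2, by ring⟩)) A hA 1
    ⟨D x, Pic0.mem_torsion.mpr (by rw [natCast_zsmul, pow_one]; exact htwo x)⟩).2 σ hσ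
  simp only at hlow
  have e : heckeOperatorBar N ⟨l, hl⟩ (σ • D x) = a l • (σ • D x) := by
    have h := hlow.trans hdown.symm
    exact sub_right_injective (add_right_cancel h)
  rw [← GaloisReps.galois_heckeOperatorBar N ⟨l, hl⟩ σ (D x), ← nsmul_galois] at e
  exact MulAction.injective σ e

/-- **Lowering from `2 N` to `N`.** -/
theorem exists_eigenclass_lower (hodd : Odd N)
    (r : GQ →* Matrix (Fin 2) (Fin 2) (ZMod 2))
    (hfin : ∃ L : IntermediateField ℚ QBar, FiniteDimensional ℚ L ∧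
      ∀ σ : GQ, (∀ z ∈ L, σ z = z) → r σ = 1)
    {G : ℕ → Prop} {a : ℕ → ℕ} (T : Finset ℕ) (hT : ∀ l, l.Prime → l ∉ T → G l)
    (hG : ∀ l, l.Prime → G l → ¬ l ∣ 2 * N * 2)
    (hfrob : ∀ l, l.Prime → G l → ∀ A : ValuationSubring QBar, A.LiesOverPrime l →
      ∀ σ : GQ, A.IsFrobeniusAt σ l → (r σ).trace = a l ∧ (r σ).det = l)
    (hin : ∃ A : ValuationSubring QBar, A.LiesOverPrime 2 ∧
      ∃ τ ∈ A.inertiaSubgroupIn ℚ, (r τ).trace = 1)
    {y : JZero (2 * N)} (hy : y ≠ 0) (h2y : 2 • y = 0)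
    (hye : ∀ l (hl : l.Prime), G l → heckeOperatorBar (2 * N) ⟨l, hl⟩ y = a l • y) :
    ∃ x : JZero N, x ≠ 0 ∧ 2 • x = 0 ∧
      ∀ l (hl : l.Prime), G l → heckeOperatorBar N ⟨l, hl⟩ x = a l • x := by
  by_contra hcon
  have hnone : ∀ x ∈ eigTors N 2 G a, x = 0 := fun x hx => by
    by_contra hx0
    exact hcon ⟨x, hx0, hx.1, hx.2⟩
  obtain ⟨A, hA, τ, hτ, htr⟩ := hin
  have hpM : ¬ 2 ∣ N := hodd.not_two_dvd_nat
  have : CharP (Res A) 2 := Arith.residueField_charP hA Nat.prime_two
  have : FF.IsFunctionField (Res A) (KM A N) :=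
    isFunctionField_KM A (natCast_res_ne_zero hA Nat.prime_two hpM)
  have h : Setup A N 2 := setup hA Nat.prime_two hpM
  obtain ⟨ζ₀, hζ₀⟩ := HasEnoughRootsOfUnity.exists_primitiveRoot QBar 2
  set ζ : QBarˣ := (hζ₀.isUnit two_ne_zero).unit with hζdef
  have hζ : IsPrimitiveRoot ζ 2 := IsPrimitiveRoot.coe_units_iff.mp (by simpa [hζdef] using hζ₀)
  have hτζ : τ (ζ : QBar) = (ζ : QBar) ^ (2 - 1) := by
    have h1 : (ζ : QBar) = -1 := by
      have := (IsPrimitiveRoot.coe_units_iff.mpr hζ).eq_neg_one_of_two_right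
      exact this
    rw [h1]
    simp
  -- the moved eigen classes are fixed by `τ`
  have hfix : ∀ v : JZero (2 * N), v ∈ eigTors (2 * N) 2 G a →
      τ • (τ • v - v) + (τ • v - v) = 0 := by
    intro v hv
    have hw : τ • v - v ∈ eigTors (2 * N) 2 G a :=
      sub_mem (smul_mem_eigTors (2 * N) 2 G a τ hv) hv
    let z : Pic0.torsion QBar (FB (2 * N)) 2 :=
      ⟨τ • v - v, Pic0.mem_torsion.mpr (by rw [natCast_zsmul]; exact hw.1)⟩
    have hz : (z : JZero (2 * N)) ∈ movedGroup A (2 * N) 2 :=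
      AddSubgroup.subset_closure ⟨τ, hτ, v, 1, by rw [pow_one]; exact hv.1, rfl⟩
    have key : ∀ D : Pic0.torsion QBar (FB N) 2 × Pic0.torsion QBar (FB N) 2 →+ JZero N,
        (∀ y, 2 • D y = 0) →
        (∀ (σ : GQ) (x y : Pic0.torsion QBar (FB (2 * N)) 2),
          (y : JZero (2 * N)) = σ • (x : JZero (2 * N)) →
            D (degMap N 2 h.hqM 2 y) = σ • D (degMap N 2 h.hqM 2 x)) →
        D (degMap N 2 h.hqM 2 z) = 0 :=
      fun D h2 hD => hnone _
        (eigen_of_equivariant hG (D.comp (degMap N 2 h.hqM 2)) (fun y => h2 _) hD hw)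
    have htors : ∀ y : Pic0.torsion QBar (FB N) 2, 2 • (y : JZero N) = 0 := fun y => by
      rw [← natCast_zsmul]; exact Pic0.mem_torsion.mp y.2
    have hk : degMap N 2 h.hqM 2 z = 0 := Prod.ext
      (Subtype.ext (key ((AddSubgroup.subtype _).comp (AddMonoidHom.fst _ _)) (fun y => htors _)
        fun σ x y e => (degMap_smul h.hqM σ x y e).1))
      (Subtype.ext (key ((AddSubgroup.subtype _).comp (AddMonoidHom.snd _ _)) (fun y => htors _)
        fun σ x y e => (degMap_smul h.hqM σ x y e).2))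
    exact smul_add_eq_zero h hζ hτ hτζ (hasUnitFn_of_mem_moved h hz) hk
  have hdet : (r τ).det = 1 := by
    have h1 : (r τ).det * (r τ⁻¹).det = 1 := by
      rw [← Matrix.det_mul, ← map_mul, mul_inv_cancel, map_one, Matrix.det_one]
    revert h1
    generalize (r τ).det = u
    generalize (r τ⁻¹).det = w
    revert u w
    decide
  refine hy ?_
  set v : eigTors (2 * N) 2 G a := ⟨y, h2y, hye⟩
  have hquad := congrArg Subtype.val (eigRep_quadratic (GaloisReps.congruenceProperty (2 * N) 2)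
    hG T hT r hfin hfrob τ v)
  rw [htr, hdet, one_smul, one_smul, AddSubgroup.coe_add, AddSubgroupClass.coe_sub, coe_eigRep,
    coe_eigRep, ZeroMemClass.coe_zero] at hquad
  have h1 := hfix y ⟨h2y, hye⟩
  have h2 : τ • τ • y = y := by
    have e : ∀ b : JZero (2 * N), b + b = 2 • b := fun b => (two_nsmul b).symm
    rw [smul_sub] at h1
    refine sub_eq_zero.mp (Eq.trans ?_ h1)
    abel
  rw [h2, show y - τ • y + y = 2 • y - τ • y by abel, h2y, zero_sub, neg_eq_zero] at hquad
  exact MulAction.injective τ (hquad.trans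
    (map_zero (DistribSMul.toAddMonoidHom (JZero (2 * N)) τ)).symm)

end Fermat.Agent.RT.Two.Seed

end
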