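import Fermat.Agent.RT.Two.Seed.LowerCores
import Fermat.Agent.RT.Two.Seed.LowerGalois
import Fermat.Agent.RT.MazurQ.EigenClass

/-!
# The mod 2 seed at level `N`

A mod 2 eigensystem of level `4 N` whose representation has an inertia element of order three
at `2` occurs at level `N`.
-/

set_option autoImplicit false

noncomputable section

namespace Fermat.Agent.RT.Two.Seed

open CongruenceSubgroup ModularCurve
open Arith (QBar GQ)
open Fermat.Agent.GaloisReps (homOp)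

/-- **The seed.** A system modulo two of level `4 N` whose representation has an inertia element
of order three at two occurs at level `N`. -/
theorem exists_seed {N : ℕ} [NeZero N] (hsq : Squarefree N) (hodd : Odd N)
    (h3 : ∃ p : ℕ, p.Prime ∧ p ∣ N ∧ p % 4 = 3)
    (r : GQ →* Matrix (Fin 2) (Fin 2) (ZMod 2))
    (hfin : ∃ L : IntermediateField ℚ QBar, FiniteDimensional ℚ L ∧
      ∀ σ : GQ, (∀ z ∈ L, σ z = z) → r σ = 1)
    (G : ℕ → Prop) (a : ℕ → ℕ) (T : Finset ℕ) (hT : ∀ l, l.Prime → l ∉ T → G l)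
    (hG : ∀ l, l.Prime → G l → ¬ l ∣ 4 * N)
    (hfrob : ∀ l, l.Prime → G l → ∀ A : ValuationSubring QBar, A.LiesOverPrime l →
      ∀ σ : GQ, A.IsFrobeniusAt σ l → (r σ).trace = a l ∧ (r σ).det = l)
    (hin : ∃ A : ValuationSubring QBar, A.LiesOverPrime 2 ∧
      ∃ τ ∈ A.inertiaSubgroupIn ℚ, (r τ).trace = 1)
    (h4 : MazurP.HasCong (4 * N) 2 G a) : MazurP.HasCong N 2 G a := by
  have h2N : NeZero (2 * N) := ⟨mul_ne_zero two_ne_zero (NeZero.ne N)⟩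
  have e4 : 4 * N = 2 * N * 2 := by ring
  rw [e4] at h4
  have hG2 : ∀ l, l.Prime → G l → ¬ l ∣ 2 * N * 2 := fun l hl hGl => e4 ▸ hG l hl hGl
  have : NeZero (2 * N * 2) := ⟨mul_ne_zero h2N.ne two_ne_zero⟩
  -- a good prime with odd trace
  obtain ⟨l₀, hl₀, hG₀, ha₀⟩ : ∃ l₀ : ℕ, l₀.Prime ∧ G l₀ ∧ Odd (a l₀) := by
    obtain ⟨L, hL, hrL⟩ := hfin
    obtain ⟨A, hA, τ, hτ, htr⟩ := hin
    obtain ⟨l, hl, hlT, B, hB, σ, hσ, he⟩ := Arith.Chebotarev.exists_frobenius_eq r L hrL τ T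
    refine ⟨l, hl, hT l hl hlT, (ZMod.natCast_eq_one_iff_odd).mp ?_⟩
    rw [← (hfrob l hl (hT l hl hlT) B hB σ hσ).1, he, htr]
  have hne : ∀ l, l.Prime → G l → l ≠ 2 := fun l hl hGl h =>
    hG2 l hl hGl (h ▸ dvd_mul_left 2 (2 * N))
  have hnd : ∀ l, l.Prime → G l → ¬ l ∣ 2 * N := fun l hl hGl h => hG2 l hl hGl (h.mul_right 2)
  -- level 4 N
  obtain ⟨g, hg, 𝔪, h𝔪, h2𝔪, hcong⟩ := h4
  have := h𝔪.isPrime
  obtain ⟨x, hx0, h2x, hxe⟩ := AtP.exists_eigenclass hg 𝔪 h2𝔪 G a hcong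
  obtain ⟨f, hf, hf0, hfe⟩ := exists_hom_of_eigenclass hx0 h2x hxe
  have hfe' : ∀ l (hl : l.Prime) (hGl : G l),
      Periods.homT hl (hG2 l hl hGl) ℤ f = a l • f := fun l hl hGl => by
    have h := hfe l hl hGl
    rw [homOp, dif_neg (hG2 l hl hGl)] at h
    exact h
  -- level 2 N
  have hF : ∀ z : ZMod (2 ^ 1), z + z = 0 := by decide
  obtain ⟨φ, hφ0, hφe, hev⟩ := exists_eigen_descent (dvd_mul_right 2 N) hF hG2 hl₀ hG₀ ha₀ hf hf0
    hfe'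
  have hsq2 : Squarefree (2 * N) :=
    (Nat.squarefree_mul (Nat.coprime_two_left.mpr hodd)).mpr ⟨Nat.squarefree_two, hsq⟩
  have hhom : ∀ ψ : Additive (Gamma0 (2 * N)) →+ ZMod (2 ^ 1), ψ + ψ = 0 := fun ψ =>
    AddMonoidHom.ext fun z => hF _
  have hfix : Periods.homT hl₀ (hnd l₀ hl₀ hG₀) ℤ φ = φ := by
    rw [hφe l₀ hl₀ hG₀, odd_nsmul_eq hhom ha₀]
  have hmem := mem_ellParHoms_of_eigen hF hsq2
    (h3.imp fun p hp => ⟨hp.1, hp.2.1.mul_left 2, hp.2.2⟩) hl₀ (hne l₀ hl₀ hG₀) (hnd l₀ hl₀ hG₀)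
    hfix fun _ => hev
  obtain ⟨y, hy0, h2y, hye⟩ := exists_eigenclass_of_hom (G := G) (a := a) hmem hφ0
    fun l hl hGl => by
      rw [homOp, dif_neg (hnd l hl hGl)]
      exact hφe l hl hGl
  -- level N
  obtain ⟨z, hz0, h2z, hze⟩ :=
    exists_eigenclass_lower hodd r hfin T hT hG2 hfrob hin hy0 h2y hye
  exact MazurQ.hasCong_of_eigenclass hz0 h2z hze

end Fermat.Agent.RT.Two.Seed

end
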