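import Fermat.Agent.RT.Two.Seed.EigenHom
import Fermat.Agent.LevelRaising.Commute

/-!
# Lowering eigen homomorphisms modulo two from level `2 L` to level `L`

For even `L` the group `Γ₀(2 L)` has index two in `Γ₀(L)`, cut out by the parity of the lower left
entry divided by `L`. An eigen homomorphism of the subgroup either has nonzero corestriction or
extends to an eigen homomorphism.
-/

set_option autoImplicit false
set_option linter.unusedSectionVars false

noncomputable section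

namespace Fermat.Agent.RT.Two.Seed

open CongruenceSubgroup Matrix.SpecialLinearGroup
open Fermat.Agent.Periods (systemT homT HeckeSystem)
open Fermat.Agent.LevelRaising (gamma0_dvd sl_det RaiseData)
open P2MW.S_ModularForm_heckeT_slash_eq_self_of_mem_Gamma0.ModularForm.HeckeSlashInvariance
open scoped MatrixGroups OnePoint

variable {L : ℕ} [NeZero L]

/-- The parity of the lower left entry over `L`. -/
def par (γ : Gamma0 L) : ZMod 2 := (((γ : SL(2, ℤ)) 1 0 / (L : ℤ) : ℤ) : ZMod 2)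

theorem par_eq {γ : Gamma0 L} {x : ℤ} (h : (γ : SL(2, ℤ)) 1 0 = (L : ℤ) * x) :
    par γ = (x : ZMod 2) := by
  rw [par, h, Int.mul_ediv_cancel_left _ (Int.natCast_ne_zero.2 (NeZero.ne L))]

theorem par_mul (hL : 2 ∣ L) (g h : Gamma0 L) : par (g * h) = par g + par h := by
  obtain ⟨x, hx⟩ := gamma0_dvd g
  obtain ⟨y, hy⟩ := gamma0_dvd h
  rw [par_eq hx, par_eq hy, par_eq (x := x * (h : SL(2, ℤ)) 0 0 + (g : SL(2, ℤ)) 1 1 * y) (by
    simp [Matrix.mul_apply, Fin.sum_univ_two, hx, hy]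
    ring)]
  have h2L : (2 : ℤ) ∣ (L : ℤ) := Int.natCast_dvd_natCast.2 hL
  have hodd : ∀ k : Gamma0 L, (((k : SL(2, ℤ)) 0 0 : ℤ) : ZMod 2) = 1 ∧
      (((k : SL(2, ℤ)) 1 1 : ℤ) : ZMod 2) = 1 := fun k => by
    have hc : (((k : SL(2, ℤ)) 1 0 : ℤ) : ZMod 2) = 0 :=
      (ZMod.intCast_zmod_eq_zero_iff_dvd _ 2).2 (h2L.trans (gamma0_dvd k))
    have hd := congrArg (Int.cast : ℤ → ZMod 2) (sl_det (k : SL(2, ℤ)))
    push_cast at hd
    rw [hc, mul_zero, sub_zero] at hd
    generalize (((k : SL(2, ℤ)) 0 0 : ℤ) : ZMod 2) = u at hd ⊢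
    generalize (((k : SL(2, ℤ)) 1 1 : ℤ) : ZMod 2) = v at hd ⊢
    revert u v
    decide
  push_cast
  rw [(hodd h).1, (hodd g).2, mul_one, one_mul]

theorem par_inv (hL : 2 ∣ L) (g : Gamma0 L) : par g⁻¹ = par g := by
  have h := par_mul hL g g⁻¹
  rw [mul_inv_cancel, par_eq (γ := (1 : Gamma0 L)) (x := 0) (by simp), Int.cast_zero] at h
  revert h
  generalize par g = u
  generalize par g⁻¹ = v
  revert u v
  decide

theorem mem_gamma0_two_iff (γ : Gamma0 L) : (γ : SL(2, ℤ)) ∈ Gamma0 (L * 2) ↔ par γ = 0 := by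
  obtain ⟨x, hx⟩ := gamma0_dvd γ
  rw [Gamma0_mem, ZMod.intCast_zmod_eq_zero_iff_dvd, par_eq hx, ZMod.intCast_zmod_eq_zero_iff_dvd,
    hx, Nat.cast_mul]
  exact mul_dvd_mul_iff_left (Int.natCast_ne_zero.2 (NeZero.ne L))

/-- An element of `Γ₀(2 L)` as an element of `Γ₀(L)`. -/
def inc (γ : Gamma0 (L * 2)) : Gamma0 L :=
  ⟨(γ : SL(2, ℤ)), by
    rw [Gamma0_mem, ZMod.intCast_zmod_eq_zero_iff_dvd]
    exact dvd_trans (by simp) (gamma0_dvd γ)⟩

theorem coe_inc (γ : Gamma0 (L * 2)) : (inc γ : SL(2, ℤ)) = (γ : SL(2, ℤ)) := rfl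

theorem inc_mul (γ δ : Gamma0 (L * 2)) : inc (γ * δ) = inc γ * inc δ := rfl

theorem inc_injective : Function.Injective (inc (L := L)) := fun _ _ h =>
  Subtype.ext (congrArg (fun x : Gamma0 L => (x : SL(2, ℤ))) h)

theorem par_inc (γ : Gamma0 (L * 2)) : par (inc γ) = 0 := (mem_gamma0_two_iff _).1 γ.2

/-- The parity is preserved by the cocycle of `T_l`. -/
theorem par_cocycle {l : ℕ} [NeZero l] (hl : l.Prime) (hlL : ¬ l ∣ L) (hl2 : l ≠ 2) (γ : Gamma0 L)
    (i : Option (ZMod l)) : par ((systemT hl hlL).cocycle γ i) = par γ := by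
  set c := (systemT hl hlL).cocycle γ i with hc
  obtain ⟨x, hx⟩ := gamma0_dvd γ
  obtain ⟨y, hy⟩ := gamma0_dvd c
  have e := (systemT hl hlL).spec γ i
  rw [← hc] at e
  obtain ⟨u, v, hu, hv, huv⟩ : ∃ u v : ℤ, (u : ZMod 2) = 1 ∧ (v : ZMod 2) = 1 ∧
      u * (γ : SL(2, ℤ)) 1 0 = v * (c : SL(2, ℤ)) 1 0 := by
    have hl1 : ((l : ℤ) : ZMod 2) = 1 := by
      rw [Int.cast_natCast, ← ZMod.natCast_mod, Nat.odd_iff.1 (hl.odd_of_ne_two hl2), Nat.cast_one]
    have hnone : (systemT hl hlL).rep none = ModularForm.heckeDiagMatrix l := rfl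
    have hsome : ∀ z : ZMod l, (systemT hl hlL).rep (some z) = ModularForm.heckeMatrix l z.val :=
      fun _ => rfl
    have e' := congrArg (fun g : GL (Fin 2) ℝ => g 1 0) e
    generalize (systemT hl hlL).perm γ i = j at e'
    rcases i with _ | i <;> rcases j with _ | j <;>
      [refine ⟨1, l, Int.cast_one, hl1, ?_⟩; refine ⟨1, 1, Int.cast_one, Int.cast_one, ?_⟩;
       refine ⟨l, l, hl1, hl1, ?_⟩; refine ⟨l, 1, hl1, Int.cast_one, ?_⟩] <;>
    · apply Int.cast_injective (α := ℝ)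
      push_cast
      simp [hnone, hsome, hl.ne_zero, Matrix.mul_apply, Fin.sum_univ_two] at e'
      first
        | linarith
        | simp [e']
  rw [hx, hy] at huv
  have h' : u * x = v * y :=
    mul_left_cancel₀ (Int.natCast_ne_zero.2 (NeZero.ne L)) (by linear_combination huv)
  have h2 := congrArg (Int.cast : ℤ → ZMod 2) h'
  push_cast at h2
  rw [hu, hv, one_mul, one_mul] at h2
  rw [par_eq hx, par_eq hy, h2]

variable (L) in
/-- The representative of parity `x`. -/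
def sig (x : ZMod 2) : Gamma0 L :=
  ⟨⟨!![1, 0; (x.val : ℤ) * L, 1], by simp [Matrix.det_fin_two_of]⟩, by
    rw [Gamma0_mem]
    simp⟩

theorem par_sig (x : ZMod 2) : par (sig L x) = x := by
  rw [par_eq (x := (x.val : ℤ)) (by simp [sig, mul_comm]), Int.cast_natCast, ZMod.natCast_zmod_val]

variable (hL : 2 ∣ L)

/-- The element of the subgroup carried by `γ` at the coset `x`. -/
def cc (γ : Gamma0 L) (x : ZMod 2) : Gamma0 (L * 2) :=
  ⟨((sig L x * γ * (sig L (x + par γ))⁻¹ : Gamma0 L) : SL(2, ℤ)), by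
    rw [mem_gamma0_two_iff, par_mul hL, par_mul hL, par_inv hL, par_sig, par_sig]
    generalize par γ = p
    revert x p
    decide⟩

theorem inc_cc (γ : Gamma0 L) (x : ZMod 2) :
    inc (cc hL γ x) = sig L x * γ * (sig L (x + par γ))⁻¹ := Subtype.ext rfl

/-- The coset system of the subgroup of index two. -/
def coresSys : HeckeSystem (Gamma0 (L * 2)) (Gamma0 L) (ZMod 2) where
  rep x := mapGL ℝ (sig L x : SL(2, ℤ))
  det_pos x := by simp
  perm γ x := x + par γ
  cocycle γ x := cc hL γ x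
  spec γ x := by
    rw [← map_mul, ← map_mul]
    exact congrArg _ (by simp [cc])
  unique i j γ h := by
    rw [← map_mul] at h
    have h' : sig L i = inc γ * sig L j :=
      Subtype.ext (Matrix.SpecialLinearGroup.mapGL_injective h)
    have := congrArg par h'
    rwa [par_mul hL, par_sig, par_sig, par_inc, zero_add] at this

variable {F : Type} [AddCommGroup F]

theorem cores_apply (f : Additive (Gamma0 (L * 2)) →+ F) (γ : Gamma0 L) :
    (coresSys hL).op ℤ f (Additive.ofMul γ) = ∑ x, f (Additive.ofMul (cc hL γ x)) := by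
  rw [HeckeSystem.op_apply, HeckeSystem.apply_apply]
  rfl

/-- Corestriction commutes with `T_l`. -/
theorem cores_homT {l : ℕ} (hl : l.Prime) (hlL : ¬ l ∣ L) (hl4 : ¬ l ∣ L * 2)
    (f : Additive (Gamma0 (L * 2)) →+ F) :
    (coresSys hL).op ℤ (homT hl hl4 ℤ f) = homT hl hlL ℤ ((coresSys hL).op ℤ f) := by
  have : NeZero l := ⟨hl.ne_zero⟩
  have hl2 : l ≠ 2 := fun h => hl4 (h ▸ dvd_mul_left 2 L)
  refine AddMonoidHom.ext fun z => ?_
  obtain ⟨γ, rfl⟩ := Additive.ofMul.surjective z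
  rw [cores_apply, homT_apply_sum]
  simp only [homT_apply_sum, cores_apply]
  -- the change of representatives between the two products of coset systems
  set S := systemT hl hlL with hS
  set S' := systemT hl hl4 with hS'
  let d : ZMod 2 → Option (ZMod l) → Gamma0 (L * 2) := fun x i => cc hL (S.cocycle (sig L x) i) 0
  have hd : ∀ x i, inc (d x i) * sig L x = S.cocycle (sig L x) i := by
    intro x i
    have hs0 : sig L 0 = 1 := Subtype.ext (Subtype.ext (by
      ext a b; fin_cases a <;> fin_cases b <;> simp [sig]))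
    simp only [d, hS, inc_cc, zero_add, par_cocycle hl hlL hl2, par_sig, hs0, one_mul,
      inv_mul_cancel_right]
  have key : ∀ x i, inc (S'.cocycle (cc hL γ x) i) *
      inc (d (x + par γ) (S'.perm (cc hL γ x) i)) =
      inc (d x i) * inc (cc hL (S.cocycle γ (S.perm (sig L x) i)) x) := by
    intro x i
    set j := S.perm (sig L x) i with hj
    set i' := S'.perm (cc hL γ x) i with hi'
    refine mul_right_cancel (b := sig L (x + par γ)) ?_
    rw [mul_assoc, hd, mul_assoc, inc_cc hL (S.cocycle γ j) x, hS, par_cocycle hl hlL hl2, ← hS,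
      inv_mul_cancel_right, ← mul_assoc, hd]
    refine (S.eq_of_mapGL_mul_rep (i := S.perm (sig L (x + par γ)) i') (j := S.perm γ j) ?_).2
    have e1 : mapGL ℝ ((S'.cocycle (cc hL γ x) i : Gamma0 (L * 2)) : SL(2, ℤ)) * S.rep i' =
        S.rep i * mapGL ℝ ((cc hL γ x : Gamma0 (L * 2)) : SL(2, ℤ)) :=
      (S'.spec (cc hL γ x) i).symm
    have e2 := S.spec (sig L (x + par γ)) i'
    have e3 := S.spec γ j
    have e4 := S.spec (sig L x) i
    rw [Subgroup.coe_mul, Subgroup.coe_mul, map_mul, map_mul, coe_inc, mul_assoc, ← e2, mul_assoc,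
      ← e3, ← mul_assoc, e1, hj, ← mul_assoc, ← e4, mul_assoc, mul_assoc, ← map_mul, ← map_mul]
    exact congrArg _ (congrArg _ (by simp [cc]))
  have hval : ∀ x i, f (Additive.ofMul (S'.cocycle (cc hL γ x) i)) +
      f (Additive.ofMul (d (x + par γ) (S'.perm (cc hL γ x) i))) =
      f (Additive.ofMul (d x i)) +
      f (Additive.ofMul (cc hL (S.cocycle γ (S.perm (sig L x) i)) x)) := fun x i => by
    rw [← map_add f, ← map_add f, ← ofMul_mul, ← ofMul_mul]
    exact congrArg f (congrArg _ (inc_injective (by rw [inc_mul, inc_mul, key])))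
  have h1 : ∑ x, ∑ i, f (Additive.ofMul (d (x + par γ) (S'.perm (cc hL γ x) i))) =
      ∑ x, ∑ i, f (Additive.ofMul (d x i)) := by
    rw [← Equiv.sum_comp (Equiv.addRight (par γ)) fun x => ∑ i, f (Additive.ofMul (d x i))]
    refine Finset.sum_congr rfl fun x _ => ?_
    exact (S'.perm_bijective _).sum_comp fun i => f (Additive.ofMul (d (x + par γ) i))
  have h2 : ∑ x, ∑ i, f (Additive.ofMul (cc hL (S.cocycle γ (S.perm (sig L x) i)) x)) =
      ∑ i, ∑ x, f (Additive.ofMul (cc hL (S.cocycle γ i) x)) := by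
    rw [Finset.sum_comm (s := Finset.univ (α := Option (ZMod l)))]
    refine Finset.sum_congr rfl fun x _ => ?_
    exact (S.perm_bijective _).sum_comp fun i => f (Additive.ofMul (cc hL (S.cocycle γ i) x))
  have h3 := Finset.sum_congr rfl fun x (_ : x ∈ Finset.univ) =>
    Finset.sum_congr rfl fun i (_ : i ∈ Finset.univ) => hval x i
  simp only [Finset.sum_add_distrib, h1, h2] at h3
  exact add_right_cancel (h3.trans (add_comm _ _))

variable (hF : ∀ x : F, x + x = 0)

/-- The multiples of the parity. -/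
def parHom (c : F) : Additive (Gamma0 L) →+ F :=
  AddMonoidHom.mk' (fun γ => if par (Additive.toMul γ) = 0 then 0 else c) fun γ δ => by
    simp only [toMul_add, par_mul hL]
    generalize par (Additive.toMul γ) = u
    generalize par (Additive.toMul δ) = v
    have h01 : ∀ w : ZMod 2, w = 0 ∨ w = 1 := by decide
    rcases h01 u with rfl | rfl <;> rcases h01 v with rfl | rfl <;>
      simp [hF, show (1 : ZMod 2) + 1 = 0 from rfl]

theorem homT_parHom {l : ℕ} (hl : l.Prime) (hlL : ¬ l ∣ L) (hl2 : l ≠ 2) (c : F) :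
    homT hl hlL ℤ (parHom hL hF c) = 0 := by
  have : NeZero l := ⟨hl.ne_zero⟩
  refine AddMonoidHom.ext fun z => ?_
  obtain ⟨γ, rfl⟩ := Additive.ofMul.surjective z
  rw [homT_apply_sum]
  simp only [parHom, AddMonoidHom.mk'_apply, toMul_ofMul, par_cocycle hl hlL hl2,
    Finset.sum_const, Finset.card_univ, Fintype.card_option, ZMod.card, succ_nsmul,
    odd_nsmul_eq hF (hl.odd_of_ne_two hl2), hF, AddMonoidHom.zero_apply]

theorem eq_parHom_of_forall_inc {φ : Additive (Gamma0 L) →+ F}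
    (h : ∀ γ, φ (Additive.ofMul (inc γ)) = 0) :
    φ = parHom hL hF (φ (Additive.ofMul (sig L 1))) := by
  refine AddMonoidHom.ext fun z => ?_
  obtain ⟨γ, rfl⟩ := Additive.ofMul.surjective z
  simp only [parHom, AddMonoidHom.mk'_apply, toMul_ofMul]
  split_ifs with hp
  · exact h ⟨(γ : SL(2, ℤ)), (mem_gamma0_two_iff γ).2 hp⟩
  · have hp1 : par (γ * (sig L 1)⁻¹) = 0 := by
      rw [par_mul hL, par_inv hL, par_sig]
      revert hp
      generalize par γ = p
      revert p
      decide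
    have h0 : φ (Additive.ofMul (γ * (sig L 1)⁻¹)) = 0 :=
      h ⟨((γ * (sig L 1)⁻¹ : Gamma0 L) : SL(2, ℤ)), (mem_gamma0_two_iff _).2 hp1⟩
    rwa [ofMul_mul, ofMul_inv, map_add, _root_.map_neg, ← sub_eq_add_neg, sub_eq_zero] at h0

include hL hF in
/-- **Descent from `2 L` to `L`.** -/
theorem exists_eigen_descent {G : ℕ → Prop} (hG : ∀ l, l.Prime → G l → ¬ l ∣ L * 2) {a : ℕ → ℕ}
    {l₀ : ℕ} (hl₀ : l₀.Prime) (hG₀ : G l₀) (ha₀ : Odd (a l₀))
    {f : Additive (Gamma0 (L * 2)) →+ F} (hf : f ∈ Gamma0.ellParHoms (Gamma0 (L * 2)) F)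
    (hf0 : f ≠ 0) (hfe : ∀ l (hl : l.Prime) (hGl : G l),
      homT hl (hG l hl hGl) ℤ f = a l • f) :
    ∃ φ : Additive (Gamma0 L) →+ F, φ ≠ 0 ∧
      (∀ l (hl : l.Prime) (hGl : G l),
        homT hl (fun h => hG l hl hGl (h.mul_right 2)) ℤ φ = a l • φ) ∧
      ∀ γ : Gamma0 L, (γ : SL(2, ℤ)) 0 0 + (γ : SL(2, ℤ)) 1 1 = 2 →
        2 * (L : ℤ) ∣ (γ : SL(2, ℤ)) 1 0 → φ (Additive.ofMul γ) = 0 := by
  classical
  have hnd : ∀ l, l.Prime → G l → ¬ l ∣ L := fun l hl hGl h => hG l hl hGl (h.mul_right 2)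
  have hne : ∀ l, l.Prime → G l → l ≠ 2 := fun l hl hGl h => hG l hl hGl (h ▸ dvd_mul_left 2 L)
  have hmem : ∀ γ : Gamma0 L, 2 * (L : ℤ) ∣ (γ : SL(2, ℤ)) 1 0 → (γ : SL(2, ℤ)) ∈ Gamma0 (L * 2) :=
    fun γ h => Gamma0_mem.2 ((ZMod.intCast_zmod_eq_zero_iff_dvd _ _).2 (by
      push_cast; rwa [mul_comm (L : ℤ)]))
  by_cases hc : (coresSys hL).op ℤ f = 0
  swap
  · refine ⟨_, hc, fun l hl hGl => ?_, fun γ htr h2 => ?_⟩
    · rw [← cores_homT hL hl _ (hG l hl hGl), hfe l hl hGl, map_nsmul]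
    · rw [cores_apply]
      refine Finset.sum_eq_zero fun x _ => hf _ ?_
      have hp : par γ = 0 := (mem_gamma0_two_iff γ).1 (hmem γ h2)
      have htr' : (((cc hL γ x : Gamma0 (L * 2)) : SL(2, ℤ)) : Matrix (Fin 2) (Fin 2) ℤ).trace =
          (((γ : SL(2, ℤ))) : Matrix (Fin 2) (Fin 2) ℤ).trace := by
        simp only [cc, hp, add_zero, Subgroup.coe_mul, Subgroup.coe_inv,
          Matrix.SpecialLinearGroup.coe_mul]
        rw [Matrix.trace_mul_comm, ← Matrix.mul_assoc, ← Matrix.SpecialLinearGroup.coe_mul,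
          inv_mul_cancel, Matrix.SpecialLinearGroup.coe_one, one_mul]
      rw [htr', Matrix.trace_fin_two, htr]
      norm_num
  have hval : ∀ (γ : Gamma0 L) (x : ZMod 2),
      f (Additive.ofMul (cc hL γ x)) = f (Additive.ofMul (cc hL γ 0)) := by
    intro γ x
    have h := DFunLike.congr_fun hc (Additive.ofMul γ)
    rw [cores_apply, AddMonoidHom.zero_apply,
      show (Finset.univ : Finset (ZMod 2)) = {0, 1} by decide,
      Finset.sum_pair (by decide : (0 : ZMod 2) ≠ 1)] at h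
    fin_cases x
    · rfl
    · exact (eq_neg_of_add_eq_zero_right h).trans (eq_neg_of_add_eq_zero_left (hF _)).symm
  let φ : Additive (Gamma0 L) →+ F :=
    AddMonoidHom.mk' (fun γ => f (Additive.ofMul (cc hL (Additive.toMul γ) 0))) fun γ δ => by
      rw [toMul_add]
      refine (congrArg f (congrArg Additive.ofMul
        ((coresSys hL).perm_cocycle_mul (Additive.toMul γ) (Additive.toMul δ) 0).2)).trans ?_
      rw [ofMul_mul, map_add]
      exact congrArg _ (hval _ _)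
  have hres : ∀ γ, φ (Additive.ofMul (inc γ)) = f (Additive.ofMul γ) := fun γ => by
    show f (Additive.ofMul (cc hL (inc γ) 0)) = _
    refine congrArg f (congrArg _ (Subtype.ext ?_))
    simp only [cc, par_inc, add_zero]
    have hs0 : ((sig L 0 : Gamma0 L) : SL(2, ℤ)) = 1 := Subtype.ext (by
      ext a b; fin_cases a <;> fin_cases b <;> simp [sig])
    simp [hs0, coe_inc]
  have hresT : ∀ l (hl : l.Prime) (hGl : G l) γ,
      homT hl (hnd l hl hGl) ℤ φ (Additive.ofMul (inc γ)) = a l • φ (Additive.ofMul (inc γ)) := by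
    intro l hl hGl γ
    have e1 : (RaiseData.resSys 2 L).apply φ = f := by
      refine AddMonoidHom.ext fun z => ?_
      obtain ⟨δ, rfl⟩ := Additive.ofMul.surjective z
      rw [LevelRaising.res_apply φ δ (coe_inc δ)]
      exact hres δ
    have e2 := LevelRaising.homT_res (q := 2) ℤ hl (hnd l hl hGl) (hG l hl hGl) φ
    rw [e1, hfe l hl hGl] at e2
    have e3 := DFunLike.congr_fun e2 (Additive.ofMul γ)
    rw [LevelRaising.res_apply _ γ (coe_inc γ), AddMonoidHom.smul_apply] at e3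
    rw [hres, e3]
  have hdiff : ∀ l (hl : l.Prime) (hGl : G l),
      ∃ c, homT hl (hnd l hl hGl) ℤ φ = a l • φ + parHom hL hF c := fun l hl hGl =>
    ⟨_, eq_add_of_sub_eq' (eq_parHom_of_forall_inc hL hF (φ := homT hl (hnd l hl hGl) ℤ φ - a l • φ)
      fun γ => by rw [AddMonoidHom.sub_apply, AddMonoidHom.smul_apply, hresT l hl hGl, sub_self])⟩
  obtain ⟨c₀, hc₀⟩ := hdiff l₀ hl₀ hG₀
  set φ' := φ + parHom hL hF c₀ with hφ'
  have hpar_inc : ∀ c γ, parHom hL hF c (Additive.ofMul (inc γ)) = 0 := fun c γ => by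
    simp [parHom, par_inc]
  have hT : ∀ l (hl : l.Prime) (hGl : G l),
      homT hl (hnd l hl hGl) ℤ φ' = homT hl (hnd l hl hGl) ℤ φ := fun l hl hGl => by
    rw [hφ', map_add, homT_parHom hL hF hl _ (hne l hl hGl), add_zero]
  have hhom : ∀ ψ : Additive (Gamma0 L) →+ F, ψ + ψ = 0 := fun ψ =>
    AddMonoidHom.ext fun z => hF _
  have hfix : homT hl₀ (hnd l₀ hl₀ hG₀) ℤ φ' = φ' := by
    rw [hT _ hl₀ hG₀, hc₀, odd_nsmul_eq hhom ha₀]
  refine ⟨φ', fun h => hf0 (AddMonoidHom.ext fun z => ?_), fun l hl hGl => ?_, fun γ htr h2 => ?_⟩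
  · obtain ⟨γ, rfl⟩ := Additive.ofMul.surjective z
    have h1 := DFunLike.congr_fun h (Additive.ofMul (inc γ))
    rw [hφ', AddMonoidHom.add_apply, hres, hpar_inc, add_zero] at h1
    exact h1
  · obtain ⟨c, hc'⟩ := hdiff l hl hGl
    have h := homT_comm hl₀ (hnd l₀ hl₀ hG₀) hl (hnd l hl hGl) φ'
    rw [hfix, hT _ hl hGl, hc', map_add, map_nsmul, homT_parHom hL hF hl₀ _ (hne _ hl₀ hG₀),
      add_zero] at h
    have h' : homT hl₀ (hnd l₀ hl₀ hG₀) ℤ φ = φ' := (hT _ hl₀ hG₀).symm.trans hfix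
    rw [h'] at h
    rw [hT _ hl hGl, hc', ← h]
  · rw [hφ', AddMonoidHom.add_apply, show γ = inc ⟨_, hmem γ h2⟩ from Subtype.ext rfl, hres,
      hpar_inc, add_zero]
    refine hf _ ?_
    rw [Matrix.trace_fin_two]
    show ((γ : SL(2, ℤ)) 0 0 + (γ : SL(2, ℤ)) 1 1) ^ 2 ≤ 4
    rw [htr]
    norm_num

end Fermat.Agent.RT.Two.Seed

end
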